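import Fermat.Agent.GAL.AN.LD

/-!
# CAR / WN-9 : descent of `n`-th roots from `FL ℂ M` to `FL ℚ̄ M`
-/

set_option autoImplicit false

open ModularCurve AlgebraicCurve
open Fermat.Agent.GAL Fermat.Agent.GAL.AN Fermat.Agent.S24

noncomputable section

namespace Fermat.Agent.CAR.WN

/-- `n`-th roots of power series with constant coefficient `1` (Hensel). -/
theorem descRoot_ps {K : Type*} [Field K] {n : ℕ} (hn : (n : K) ≠ 0) (u : PowerSeries K)
    (hu : PowerSeries.constantCoeff u = 1) : ∃ g : PowerSeries K, g ^ n = u := by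
  have hn0 : n ≠ 0 := by
    rintro rfl
    exact hn Nat.cast_zero
  have hH : HenselianRing (PowerSeries K) (Ideal.span {PowerSeries.X}) := inferInstance
  obtain ⟨a, ha, -⟩ := hH.is_henselian (Polynomial.X ^ n - Polynomial.C u)
    (Polynomial.monic_X_pow_sub_C u hn0) 1
    (by
      rw [Ideal.mem_span_singleton, PowerSeries.X_dvd_iff]
      simp [hu])
    (by
      apply IsUnit.map
      have : (Polynomial.derivative (Polynomial.X ^ n - Polynomial.C u : Polynomial (PowerSeries K))).eval 1
          = PowerSeries.C (n : K) := by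
        rw [Polynomial.derivative_sub, Polynomial.derivative_C, sub_zero,
          Polynomial.derivative_X_pow, Polynomial.eval_mul, Polynomial.eval_pow, Polynomial.eval_X,
          one_pow, mul_one, Polynomial.eval_C, map_natCast]
      rw [this]
      exact (isUnit_iff_ne_zero.mpr hn).map _)
  refine ⟨a, ?_⟩
  have : a ^ n - u = 0 := by simpa [Polynomial.IsRoot] using ha
  exact sub_eq_zero.mp this

/-- `n`-th roots of Laurent series over an algebraically closed field of characteristic `0`. -/
theorem descRoot_laurent {K : Type*} [Field K] [IsAlgClosed K] [CharZero K] {n : ℕ} (hn : n ≠ 0)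
    (w : LaurentSeries K) (e : ℤ) (he : w.order = n * e) : ∃ y : LaurentSeries K, y ^ n = w := by
  rcases eq_or_ne w 0 with rfl | hw
  · exact ⟨0, zero_pow hn⟩
  set P := w.powerSeriesPart with hP
  set a : K := PowerSeries.constantCoeff P with ha
  have ha0 : a ≠ 0 := by
    rw [ha, ← PowerSeries.coeff_zero_eq_constantCoeff_apply, hP, LaurentSeries.powerSeriesPart_coeff]
    simpa using (not_congr HahnSeries.coeff_order_eq_zero).mpr hw
  obtain ⟨b, hb⟩ := IsAlgClosed.exists_pow_nat_eq a (Nat.pos_of_ne_zero hn)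
  obtain ⟨g, hg⟩ := descRoot_ps (K := K) (n := n) (Nat.cast_ne_zero.mpr hn) (PowerSeries.C a⁻¹ * P)
    (by simp [← ha, inv_mul_cancel₀ ha0])
  refine ⟨HahnSeries.single e (1 : K) * HahnSeries.ofPowerSeries ℤ K (PowerSeries.C b * g), ?_⟩
  have h1 : (PowerSeries.C b * g) ^ n = P := by
    rw [mul_pow, hg, ← map_pow, hb, ← mul_assoc, ← map_mul, mul_inv_cancel₀ ha0, map_one, one_mul]
  rw [mul_pow, ← map_pow (HahnSeries.ofPowerSeries ℤ K), h1, HahnSeries.single_pow, one_pow,
    nsmul_eq_mul, ← he]
  exact LaurentSeries.single_order_mul_powerSeriesPart w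

theorem descRoot_order_iotaS (x : LaurentSeries Qb) : (iotaS x).order = x.order := by
  have hf : Function.Injective iota := iota.injective
  by_cases hx : x = 0
  · subst hx; simp
  · have hsupp : (coeffMap iota x).support = x.support := by
      ext k
      simp only [HahnSeries.mem_support, coeffMap_coeff, ne_eq]
      rw [map_eq_zero_iff iota hf]
    have hx' : coeffMap iota x ≠ 0 := by
      intro h
      apply hx
      ext k
      have := congrArg (fun y => HahnSeries.coeff y k) h
      simpa [map_eq_zero_iff iota hf] using this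
    unfold iotaS
    rw [HahnSeries.order_of_ne hx', HahnSeries.order_of_ne hx]
    congr 1

/-- an `n`-th root of unity in `ℂ((q))` is a constant. -/
theorem descRoot_const {n : ℕ} (hn : n ≠ 0) (c : LaurentSeries ℂ) (hc : c ^ n = 1) :
    ∃ z : ℂ, c = algebraMap ℂ (LaurentSeries ℂ) z := by
  have : NeZero n := ⟨hn⟩
  have hζ : IsPrimitiveRoot (Complex.exp (2 * Real.pi * Complex.I / n)) n :=
    Complex.isPrimitiveRoot_exp n hn
  have hζ' : IsPrimitiveRoot (algebraMap ℂ (LaurentSeries ℂ) (Complex.exp (2 * Real.pi * Complex.I / n))) n :=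
    hζ.map_of_injective (algebraMap ℂ (LaurentSeries ℂ)).injective
  obtain ⟨i, -, hi⟩ := hζ'.eq_pow_of_pow_eq_one hc
  exact ⟨Complex.exp (2 * Real.pi * Complex.I / n) ^ i, by rw [map_pow, hi]⟩

theorem exists_root_of_iotaS (M n : ℕ) (hn : n ≠ 0) (w : LaurentSeries Qb) (hw : w ∈ FL Qb M)
    (H : LaurentSeries ℂ) (hH : H ∈ FL ℂ M) (h : iotaS w = H ^ n) :
    ∃ y ∈ FL Qb M, y ^ n = w := by
  rcases eq_or_ne w 0 with rfl | hw0
  · exact ⟨0, (FL Qb M).zero_mem, zero_pow hn⟩
  have hH0 : H ≠ 0 := by
    rintro rfl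
    rw [zero_pow hn] at h
    exact hw0 (iotaS.injective (by rw [h, map_zero]))
  have hord : w.order = n * H.order := by
    rw [← descRoot_order_iotaS, h, HahnSeries.order_pow, nsmul_eq_mul]
  obtain ⟨y, hy⟩ := descRoot_laurent hn w H.order hord
  refine ⟨y, ?_, hy⟩
  apply mem_FL_of_iotaS_mem
  have h1 : (iotaS y / H) ^ n = 1 := by
    rw [div_pow, ← map_pow, hy, h, div_self (pow_ne_zero n hH0)]
  obtain ⟨z, hz⟩ := descRoot_const hn _ h1
  have h2 : iotaS y = algebraMap ℂ (LaurentSeries ℂ) z * H := by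
    rw [← hz, div_mul_cancel₀ _ hH0]
  rw [h2]
  exact (FL ℂ M).mul_mem ((FL ℂ M).algebraMap_mem z) hH

end Fermat.Agent.CAR.WN
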