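import Fermat.Agent.CAR.WN.TrFun
import Fermat.Agent.GR.HeckeField.Main

/-!
# CAR / WN-8 : the product of the conjugates of `u ^ n` is an `n`-th power in `FL ℂ`
-/

set_option autoImplicit false

open Matrix.SpecialLinearGroup UpperHalfPlane CongruenceSubgroup ModularFormClass
open ModularCurve ModularCurve.Period
open Fermat.Agent.TOR Fermat.Agent.TOR.NF Fermat.Agent.GAL Fermat.Agent.GAL.HK Fermat.Agent.GAL.AN
open Fermat.Agent.S24 Fermat.Agent.GR.HeckeField
open scoped MatrixGroups ModularForm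

noncomputable section

namespace Fermat.Agent.CAR.WN

variable {L q : ℕ}

/-- `trFun` as a product of translates in `MerMod`. -/
theorem EmbProd_trFun_eq [NeZero q] (a : MerMod (L * q)) :
    (⟨trFun L q a.1, trFun_mem a⟩ : MerMod (L * q)) = ∏ j : ZMod q, (lowG L (j.val : ℤ))⁻¹ • a := by
  apply Subtype.ext
  funext τ
  have h1 : ((∏ j : ZMod q, (lowG L (j.val : ℤ))⁻¹ • a : MerMod (L * q)) : ℍ → ℂ) τ
      = ∏ j : ZMod q, ((lowG L (j.val : ℤ))⁻¹ • a).1 τ := by
    rw [← Subalgebra.coe_val, map_prod, Finset.prod_apply]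
  rw [h1]
  simp only [smul_MerMod_apply, inv_inv]
  rfl

theorem exists_root_prod_emb [NeZero L] [NeZero q] (hq : q.Prime) (hqL : q ∣ L) {n : ℕ} [NeZero n]
    (u : Van (L * q) n)
    (h0 : (datumTr hq hqL).T (ZMod n) (HPar.hom (AN.chrFun u)) = 0)
    (z : FN (L * q)) (hz : (z : LaurentSeries Qb) = ((u : (LaurentSeries Qb)ˣ) : LaurentSeries Qb) ^ n) :
    ∃ H ∈ FL ℂ (L * q), ∏ j : ZMod q, emb L q (lowG L (j.val : ℤ))⁻¹ z = kapC (L * q) (H ^ n) := by
  obtain ⟨Pa, Pb, hu, eu⟩ := exists_isReal u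
  obtain ⟨a, b, ha, hb, hPa, hPb, hab⟩ := hu
  have hA := isCharFun_trFun hq hqL a Pa hPa
  have hB := isCharFun_trFun hq hqL b Pb hPb
  have hPP : trP hq hqL Pa = trP hq hqL Pb := by
    apply Subtype.ext
    show (datumTr hq hqL).T (ZMod n) (HPar.hom Pa) = (datumTr hq hqL).T (ZMod n) (HPar.hom Pb)
    rw [eu] at h0
    have h1 : HPar.hom (Pa - Pb) = HPar.hom Pa - HPar.hom Pb := rfl
    rw [h1, map_sub, sub_eq_zero] at h0
    exact h0
  have hne : ∀ c : MerMod (L * q), c ≠ 0 →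
      (⟨trFun L q c.1, trFun_mem c⟩ : MerMod (L * q)) ≠ 0 := by
    intro c hc
    rw [EmbProd_trFun_eq]
    exact Finset.prod_ne_zero_iff.2 fun j _ => (smul_ne_zero_iff_ne _).2 hc
  have htA0 := hne a ha
  have htB0 := hne b hb
  obtain ⟨A', hA'⟩ := hA.exists_kapC
  obtain ⟨B', hB'⟩ := hB.exists_kapC
  have hkB' : kapC (L * q) B' ≠ 0 := hB' ▸ LamM_ne_zero htB0
  have hReal : IsRealC (L * q) n (A' / B') (trP hq hqL Pa) (trP hq hqL Pa) :=
    ⟨_, _, htA0, htB0, hA, hPP ▸ hB, by rw [map_div₀, hA', hB', div_mul_cancel₀ _ hkB']⟩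
  refine ⟨A' / B', hReal.mem_FL, ?_⟩
  have hkey : Psi (L * q) z * algebraMap (MerMod (L * q)) (LL (L * q)) (b ^ n)
      = algebraMap (MerMod (L * q)) (LL (L * q)) (a ^ n) := by
    apply LamL_injective
    rw [map_mul, LamL_Psi, LamL_algebraMap, LamL_algebraMap, map_pow, map_pow, hab, mul_pow,
      kap_apply, hz]
    congr 1
    rw [map_pow, map_pow]
    rfl
  have hj : ∀ j : ZMod q, emb L q (lowG L (j.val : ℤ))⁻¹ z
      * LamM (L * q) ((lowG L (j.val : ℤ))⁻¹ • b) ^ n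
      = LamM (L * q) ((lowG L (j.val : ℤ))⁻¹ • a) ^ n := by
    intro j
    have := congrArg (fun x => LamL (L * q) ((lowG L (j.val : ℤ))⁻¹ • x)) hkey
    simp only [smul_mul', smul_algebraMap_LL, smul_pow', map_mul, LamL_algebraMap, map_pow] at this
    rw [emb_apply]
    exact this
  have hprod : (∏ j : ZMod q, emb L q (lowG L (j.val : ℤ))⁻¹ z)
      * LamM (L * q) ⟨trFun L q b.1, trFun_mem b⟩ ^ n
      = LamM (L * q) ⟨trFun L q a.1, trFun_mem a⟩ ^ n := by
    rw [EmbProd_trFun_eq, EmbProd_trFun_eq, map_prod, map_prod, ← Finset.prod_pow,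
      ← Finset.prod_pow, ← Finset.prod_mul_distrib]
    exact Finset.prod_congr rfl fun j _ => hj j
  rw [map_pow, map_div₀, ← hA', ← hB', div_pow, eq_div_iff (pow_ne_zero n (LamM_ne_zero htB0))]
  exact hprod

end Fermat.Agent.CAR.WN
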