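import Fermat.Agent.CAR.WN.Defs
import Fermat.Agent.CAR.FQ2E.Deg

/-!
# CAR / WN : the norm `N1` along `alp` is the product of the conjugates by `lowG`

`kap (alp (N1 z)) = ∏_{j mod q} emb (lowG (M' q) j)⁻¹ z`.
-/

set_option autoImplicit false

open UpperHalfPlane ModularCurve AlgebraicCurve CongruenceSubgroup
open scoped MatrixGroups

noncomputable section

namespace Fermat.Agent.CAR.WN

open Fermat.Agent.S24 Fermat.Agent.S28 Fermat.Agent.GR.HeckeField Fermat.Agent.TOR.GB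
  Fermat.Agent.GAL Fermat.Agent.CAR.FQ2E

/-- `lowG L k ∈ Γ₀(L q)` iff `q ∣ k`. -/
theorem dvd_of_lowG_mem_Gamma0_mul {L q : ℕ} [NeZero L] {k : ℤ} (h : lowG L k ∈ Gamma0 (L * q)) :
    (q : ℤ) ∣ k := by
  rw [Gamma0_mem, lowG_apply_one_zero, ZMod.intCast_zmod_eq_zero_iff_dvd] at h
  have h1 : (L : ℤ) * q ∣ (L : ℤ) * k := by
    have : ((L * q : ℕ) : ℤ) = (L : ℤ) * q := by push_cast; ring
    rw [← this, mul_comm (L : ℤ) k]
    exact h
  exact Int.dvd_of_mul_dvd_mul_left (by exact_mod_cast NeZero.ne L) h1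

/-- the conjugates by `(lowG L j)⁻¹`, `j mod q`, are pairwise distinct. -/
theorem emb_lowG_injective (L q : ℕ) [NeZero L] [NeZero q] :
    Function.Injective (fun j : ZMod q => emb L q (lowG L (j.val : ℤ))⁻¹) := by
  intro i j hij
  have h1 := DFunLike.congr_fun hij (Jd (L * q) (L * q) dvd_rfl)
  simp only [emb_apply, Psi_Jd, smul_algebraMap_LL] at h1
  have h2 := IsFractionRing.injective (MerMod (L * q)) (LL (L * q)) (LamL_injective (L * q) h1)
  have h3 : ∀ τ : ℍ, jD (L * q) (lowG L (i.val : ℤ) • τ) = jD (L * q) (lowG L (j.val : ℤ) • τ) := by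
    intro τ
    have := congrFun (congrArg Subtype.val h2) τ
    simpa [inv_inv] using this
  have h4 : lowG L ((i.val : ℤ) - (j.val : ℤ)) ∈ Gamma0 (L * q) := by
    apply mem_Gamma0_of_jD_smul
    intro τ
    have := h3 (lowG L (-(j.val : ℤ)) • τ)
    rw [← mul_smul, ← mul_smul, ← lowG_add, ← lowG_add, add_neg_cancel, lowG_zero, one_smul] at this
    rw [sub_eq_add_neg]
    exact this
  have h5 := dvd_of_lowG_mem_Gamma0_mul h4
  have h6 : (((i.val : ℤ) - (j.val : ℤ) : ℤ) : ZMod q) = 0 :=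
    (ZMod.intCast_zmod_eq_zero_iff_dvd _ _).2 h5
  push_cast at h6
  rw [ZMod.natCast_zmod_val, ZMod.natCast_zmod_val, sub_eq_zero] at h6
  exact h6

variable {M' q : ℕ} [NeZero M'] [NeZero q]

/-- **the norm along `alp` as a product of conjugates.** -/
theorem kap_alp_N1 (hq : q.Prime) (hqM : ¬ q ∣ M') (z : FN (M' * q * q)) :
    kap (M' * q * q) (alp (M' * q) q (N1 M' q z))
      = ∏ j : ZMod q, emb (M' * q) q (lowG (M' * q) (j.val : ℤ))⁻¹ z := by
  let _ := algFN (M' * q) q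
  have hfr : Module.finrank (FN (M' * q)) (FN (M' * q * q)) = q := finrank_alp M' q hq hqM
  have : FiniteDimensional (FN (M' * q)) (FN (M' * q * q)) :=
    Module.finite_of_finrank_pos (by rw [hfr]; exact hq.pos)
  have key := norm_eq_prod_of_ringHoms (K := FN (M' * q)) (L := FN (M' * q * q))
    (fun j : ZMod q => emb (M' * q) q (lowG (M' * q) (j.val : ℤ))⁻¹)
    (emb_lowG_injective (M' * q) q)
    (fun i j x => by
      show emb (M' * q) q _ (alp (M' * q) q x) = emb (M' * q) q _ (alp (M' * q) q x)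
      rw [emb_alp _ _ (inv_mem (lowG_mem_Gamma0 _ _)), emb_alp _ _ (inv_mem (lowG_mem_Gamma0 _ _))])
    (by rw [hfr, ZMod.card]) 0 z
  refine Eq.trans ?_ key
  show _ = emb (M' * q) q _ (alp (M' * q) q (N1 M' q z))
  rw [emb_alp _ _ (inv_mem (lowG_mem_Gamma0 _ _))]

end Fermat.Agent.CAR.WN
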