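import Fermat.Agent.CAR.WN.Newform
import Fermat.Agent.CAR.WN.EmbProd
import Fermat.Agent.CAR.WN.NormEmb
import Fermat.Agent.CAR.WN.DescRoot
import Fermat.Agent.TOR.S35Asm

/-!
# CAR / WN : EXPORT.  The Kummer representatives attached to the dual period lattice of a newform of
level `N`, `q² ∣ N`, are killed by both norms to level `M₁ / q` (`M₁ = M' q²`, `N ∣ M₁`, `q ∤ M'`).

* `nmU_torPsiRep_mem`  : `nmU q u ∈ FLU M₁`                      (`U_q g = 0`),
* `exists_root_N1`     : `alp (N1 (u ^ n)) = y ^ n`, `y ∈ FL ℚ̄ M₁`  (`Tr g = 0`).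
-/

set_option autoImplicit false

open Matrix.SpecialLinearGroup UpperHalfPlane CongruenceSubgroup ModularFormClass
open ModularCurve ModularCurve.Period AlgebraicCurve
open Fermat.Agent.TOR Fermat.Agent.TOR.NF Fermat.Agent.GAL Fermat.Agent.GAL.HK Fermat.Agent.GAL.AN
open Fermat.Agent.S24 Fermat.Agent.GR.HeckeField Fermat.Agent.GR.CB Fermat.Agent.CAR.FQ2E
open scoped MatrixGroups ModularForm

noncomputable section

namespace Fermat.Agent.CAR.WN

/-- `U_q` kills the period map of a newform of level `N`, `q² ∣ N`, seen at level `M`. -/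
theorem cohU_periodMap_levelUp_eq_zero {N M q : ℕ} [NeZero M] (hq : q.Prime) (hqN : q * q ∣ N)
    (hNM : N ∣ M) {g : CuspForm (Gamma0 N) 2} (hg : g.IsNewform) :
    cohU M hq (((Dvd.intro _ rfl).trans hqN).trans hNM) ℂ (periodMap M (levelUp hNM g)) = 0 := by
  have hqN1 : q ∣ N := (Dvd.intro _ rfl).trans hqN
  have h0 : qCoeff g q = 0 := by
    obtain ⟨L', rfl⟩ := hqN
    have e : q * q * L' = (q * L') * q := by ring
    have hne : NeZero (q * q * L') := ⟨fun h0 => NeZero.ne M (by
      rw [h0] at hNM; exact Nat.eq_zero_of_zero_dvd hNM)⟩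
    revert g hNM hqN1 hne
    rw [e]
    intro hNM g hg _ hne
    exact qCoeff_eq_zero_of_isNewform hq (Dvd.intro _ rfl) hg
  rw [← periodMap_heckeULin, heckeULin_levelUp hNM hg.1 hq hqN1, h0, zero_smul]
  have := S21.periodMap_smul (N := M) 0 (0 : CuspForm (Gamma0 M) 2)
  simpa using this

/-- the trace kills a newform of level `N`, `q² ∣ N`, seen at level `M' q²`. -/
theorem trQ_levelUp_eq_zero {N M' q : ℕ} [NeZero M'] [NeZero q] (hq : q.Prime) (hqM' : ¬ q ∣ M')
    (hqN : q * q ∣ N) (hNM : N ∣ M' * q * q) {g : CuspForm (Gamma0 N) 2} (hg : g.IsNewform) :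
    trQ (M' * q) q ⇑(levelUp hNM g) = 0 := by
  rw [coe_levelUp]
  obtain ⟨L', rfl⟩ := hqN
  obtain ⟨a, ha⟩ := hNM
  have hq0 : 0 < q := hq.pos
  have h1 : M' = a * L' := by
    have : (q * q) * M' = (q * q) * (a * L') := by
      calc (q * q) * M' = M' * q * q := by ring
        _ = q * q * L' * a := ha
        _ = (q * q) * (a * L') := by ring
    exact Nat.eq_of_mul_eq_mul_left (Nat.mul_pos hq0 hq0) this
  have hacop : a.Coprime q := by
    rw [Nat.coprime_comm, Nat.Prime.coprime_iff_not_dvd hq]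
    intro h
    exact hqM' (h1 ▸ h.mul_right L')
  have e : q * q * L' = (L' * q) * q := by ring
  have hL' : L' ≠ 0 := by
    rintro rfl
    exact NeZero.ne M' (by rw [h1, mul_zero])
  have hne : NeZero (q * q * L') := ⟨by positivity⟩
  have e2 : M' * q = a * (L' * q) := by rw [h1]; ring
  rw [e2]
  revert g hne
  rw [e]
  intro g hg hne
  rw [trQ_mul_left a hacop (inv_cuspForm g)]
  exact trQ_eq_zero_of_isNewform hq (Dvd.intro_left _ rfl) hg

section main

variable {N M' q lam : ℕ} [NeZero M'] [NeZero q]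

/-- **Export (i)**: the multiplicative `U_q` kills the classes. -/
theorem nmU_torPsiRep_mem (hq : q.Prime) (hqN : q * q ∣ N) (hNM : N ∣ M' * q * q)
    {g : CuspForm (Gamma0 N) 2} (hg : g.IsNewform) (hlam : lam ≠ 0) (hadm : AdmLevel (M' * q * q))
    (m : ℕ) (f : Module.Dual ℤ (perGrp (periodMap (M' * q * q) (levelUp hNM g)))) :
    nmU q (torPsiRep (anFamily (M' * q * q) lam hlam hadm) m (redL (M' * q * q) (lam ^ m)
      (perEmbL (periodMap (M' * q * q) (levelUp hNM g)) (S21.periodMap_mem_parabolicHoms _) f)) : UU)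
      ∈ FLU (M' * q * q) := by
  have hqM : q ∣ M' * q * q := ((Dvd.intro _ rfl).trans hqN).trans hNM
  have h := nmU_psiRep_mem hq hqM (anFamily (M' * q * q) lam hlam hadm)
    (anU_anFamily (M' * q * q) lam hlam hadm hq hqM)
    (periodMap (M' * q * q) (levelUp hNM g)) (S21.periodMap_mem_parabolicHoms _) 0
    (by rw [cohU_periodMap_levelUp_eq_zero hq hqN hNM hg]; simp) m f
  simpa using h

/-- **Export (ii)**: the norm `N1` along `alp` of `u ^ n` is an `n`-th power. -/
theorem exists_root_N1 (hq : q.Prime) (hqM' : ¬ q ∣ M') (hqN : q * q ∣ N) (hNM : N ∣ M' * q * q)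
    {g : CuspForm (Gamma0 N) 2} (hg : g.IsNewform) (hlam : lam ≠ 0) (hadm : AdmLevel (M' * q * q))
    (m : ℕ) (f : Module.Dual ℤ (perGrp (periodMap (M' * q * q) (levelUp hNM g))))
    (z : FN (M' * q * q))
    (hz : (z : LaurentSeries Qb) = (((torPsiRep (anFamily (M' * q * q) lam hlam hadm) m
      (redL (M' * q * q) (lam ^ m) (perEmbL (periodMap (M' * q * q) (levelUp hNM g))
        (S21.periodMap_mem_parabolicHoms _) f)) : UU) : (LaurentSeries Qb)ˣ) : LaurentSeries Qb)
          ^ (lam ^ m)) :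
    ∃ y ∈ FL Qb (M' * q * q),
      y ^ (lam ^ m) = ((alp (M' * q) q (N1 M' q z) : FN (M' * q * q)) : LaurentSeries Qb) := by
  have : NeZero (lam ^ m) := ⟨pow_ne_zero m hlam⟩
  have hqL : q ∣ M' * q := Dvd.intro_left _ rfl
  let u : Van (M' * q * q) (lam ^ m) := torPsiRep (anFamily (M' * q * q) lam hlam hadm) m
    (redL (M' * q * q) (lam ^ m) (perEmbL (periodMap (M' * q * q) (levelUp hNM g))
      (S21.periodMap_mem_parabolicHoms _) f))
  have hchr : AN.chrFun u = redL (M' * q * q) (lam ^ m)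
      (perEmbL (periodMap (M' * q * q) (levelUp hNM g)) (S21.periodMap_mem_parabolicHoms _) f) := by
    have := chr_torPsiRep (anFamily (M' * q * q) lam hlam hadm) m (redL (M' * q * q) (lam ^ m)
      (perEmbL (periodMap (M' * q * q) (levelUp hNM g)) (S21.periodMap_mem_parabolicHoms _) f))
    exact Multiplicative.ofAdd.injective this
  have hT : (datumTr hq hqL).T ℂ (periodMap (M' * q * q) (levelUp hNM g)) = 0 :=
    datumTr_T_periodMap hq hqL _ (trQ_levelUp_eq_zero hq hqM' hqN hNM hg)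
  have h0 : (datumTr hq hqL).T (ZMod (lam ^ m)) (HPar.hom (AN.chrFun u)) = 0 := by
    rw [hchr]
    have h1 : HPar.hom (redL (M' * q * q) (lam ^ m)
        (perEmbL (periodMap (M' * q * q) (levelUp hNM g)) (S21.periodMap_mem_parabolicHoms _) f))
        = (Int.castAddHom (ZMod (lam ^ m))).comp
          (perEmb (periodMap (M' * q * q) (levelUp hNM g)) f) := rfl
    rw [h1, HeckeDatum.T_comp, datum_T_perEmb_eq_zero _ _ hT f]
    exact AddMonoidHom.comp_zero _
  obtain ⟨H, hH, hprod⟩ := exists_root_prod_emb hq hqL u h0 z hz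
  rw [← kap_alp_N1 hq hqM'] at hprod
  refine exists_root_of_iotaS (M' * q * q) (lam ^ m) (NeZero.ne _) _
    (alp (M' * q) q (N1 M' q z)).2 H hH ?_
  exact kapC_injective (M' * q * q) hprod

end main

end Fermat.Agent.CAR.WN
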