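import Fermat.Agent.CAR.WN.SysTr
import Fermat.Agent.GAL.HK.Period
import Fermat.Agent.GAL.HK.Parabolic
import Fermat.Agent.TOR.PeriodLattice

/-!
# CAR / WN-6 : vanishing of the transfer in cohomology
-/

set_option autoImplicit false

open Matrix.SpecialLinearGroup UpperHalfPlane CongruenceSubgroup
open ModularCurve ModularCurve.Period
open Fermat.Agent.TOR Fermat.Agent.GAL Fermat.Agent.GAL.HK
open scoped MatrixGroups ModularForm

noncomputable section

namespace Fermat.Agent.CAR.WN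

variable {L q : ℕ}

/-- the representatives, indexed by the index type of `datumTr`. -/
def repTr [NeZero q] (hq : q.Prime) (hqL : q ∣ L) (x : (datumTr hq hqL).ι) : GL (Fin 2) ℝ :=
  (sysTr hq hqL).rep x

theorem repTr_eq [NeZero q] (hq : q.Prime) (hqL : q ∣ L) (x : ZMod q) :
    repTr hq hqL x = mapGL ℝ (lowG L (x.val : ℤ)) := sysTr_rep hq hqL x

theorem datumTr_rep_mul [NeZero q] (hq : q.Prime) (hqL : q ∣ L) (γ : Gamma0 (L * q))
    (x : (datumTr hq hqL).ι) :
    repTr hq hqL x * mapGL ℝ (γ : SL(2, ℤ)) =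
      mapGL ℝ (((datumTr hq hqL).coc γ x : Gamma0 (L * q)) : SL(2, ℤ)) *
        repTr hq hqL ((datumTr hq hqL).perm γ x) :=
  (sysTr hq hqL).coc_spec γ x

theorem det_repTr_pos [NeZero q] (hq : q.Prime) (hqL : q ∣ L) (x : (datumTr hq hqL).ι) :
    0 < (repTr hq hqL x).val.det := by
  have h := repTr_eq hq hqL x
  rw [h, TOR.NF.mapGL_eq_glZ]
  exact TOR.NF.glZ_det_pos _ _

theorem sum_slash_repTr [NeZero q] (hq : q.Prime) (hqL : q ∣ L) (f : ℍ → ℂ) :
    (∑ x : (datumTr hq hqL).ι, f ∣[(2 : ℤ)] repTr hq hqL x) = trQ L q f := by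
  unfold trQ
  exact Finset.sum_congr rfl fun x _ => by rw [repTr_eq hq hqL x]

theorem datumTr_T_periodMap [NeZero q] [NeZero (L * q)] (hq : q.Prime) (hqL : q ∣ L)
    (F : CuspForm (Gamma0 (L * q)) 2) (h : trQ L q ⇑F = 0) :
    (datumTr hq hqL).T ℂ (periodMap (L * q) F) = 0 := by
  have h1 := periodMap_of_datum (datumTr hq hqL) (repTr hq hqL) (datumTr_rep_mul hq hqL)
    (det_repTr_pos hq hqL) F 0 (by
      rw [sum_slash_repTr, h]
      rfl)
  rw [← h1]
  have := S21.periodMap_smul (N := L * q) 0 (0 : CuspForm (Gamma0 (L * q)) 2)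
  simpa using this

theorem datum_T_perEmb_eq_zero {Γ : Type*} [Group Γ] (P : Additive Γ →+ ℂ) (D : HeckeDatum Γ)
    (h : D.T ℂ P = 0) (f : Module.Dual ℤ (perGrp P)) : D.T ℤ (perEmb P f) = 0 := by
  have h1 := datum_perEmb P D 0 (by rw [h]; simp) f
  rw [h1, map_zero]
  simp

theorem datumTr_isParabolicHom [NeZero q] (hq : q.Prime) (hqL : q ∣ L) {A : Type*}
    [AddCommGroup A] (P : Additive (Gamma0 (L * q)) →+ A)
    (hP : IsParabolicHom (Gamma0 (L * q)) P) :
    IsParabolicHom (Gamma0 (L * q)) ((datumTr hq hqL).T A P) :=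
  isParabolicHom_of_datum (datumTr hq hqL) (repTr hq hqL) (datumTr_rep_mul hq hqL) P hP

end Fermat.Agent.CAR.WN
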