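import Fermat.Agent.CAR.WN.Export
import Fermat.Agent.CAR.W.Top

/-!
# CAR / WN : the contract `W.WNExport` (verbatim) from `WN/Export.lean`.
-/

set_option autoImplicit false

open ModularCurve AlgebraicCurve CongruenceSubgroup ModularCurve.Period ModularFormClass
open Fermat.Agent.GAL Fermat.Agent.GAL.HK Fermat.Agent.GR.CB Fermat.Agent.TOR Fermat.Agent.S24
open Fermat.Agent.GR.HeckeField

noncomputable section

namespace Fermat.Agent.CAR.WN

/-- **the contract of block [WN]**. -/
theorem wnExport : W.WNExport := by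
  intro M M' q lam _ _ _ hq hqM' hadm hlam _ h hfac g hg m f
  have hqN : q * q ∣ M := by
    have h1 := Nat.ordProj_dvd M q
    rw [hfac, pow_two] at h1
    exact h1
  refine ⟨nmU_torPsiRep_mem hq hqN h hg hlam.ne_zero hadm m f, ?_⟩
  obtain ⟨-, hf, -⟩ := ((AN.anFamily (M' * q * q) lam hlam.ne_zero hadm).An m).isKum _
    (torPsiRep (AN.anFamily (M' * q * q) lam hlam.ne_zero hadm) m
      (redL (M' * q * q) (lam ^ m) (perEmbL (periodMap (M' * q * q) (levelUp h g))
        (S21.periodMap_mem_parabolicHoms _) f))).2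
  obtain ⟨y, hy, hyz⟩ := exists_root_N1 hq hqM' hqN h hg hlam.ne_zero hadm m f ⟨_, hf⟩ rfl
  exact ⟨⟨_, hf⟩, ⟨y, hy⟩, rfl, Subtype.ext hyz.symm⟩

end Fermat.Agent.CAR.WN
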