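import Fermat.Agent.TOR.NF.Main
import Fermat.Agent.GAL.HK.Datum

/-!
# CAR / WN : definitions.  Level `L * q` with `q ∣ L` (so `q² ∣ L * q`).

* `lowG L k = [[1,0],[k L,1]]`; `lowG L j`, `j mod q`, represent `Γ₀(L q) \ Γ₀(L)`.
* `trQ L q f = ∑_{j mod q} f ∣[2] lowG L j` : the trace from level `L q` to level `L`.
-/

set_option autoImplicit false

open Matrix.SpecialLinearGroup UpperHalfPlane CongruenceSubgroup
open scoped MatrixGroups ModularForm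

noncomputable section

namespace Fermat.Agent.CAR.WN

/-- `[[1,0],[k L,1]]`. -/
def lowG (L : ℕ) (k : ℤ) : SL(2, ℤ) :=
  ⟨!![1, 0; k * L, 1], by simp [Matrix.det_fin_two_of]⟩

@[simp] theorem lowG_apply_zero_zero (L : ℕ) (k : ℤ) : lowG L k 0 0 = 1 := rfl
@[simp] theorem lowG_apply_zero_one (L : ℕ) (k : ℤ) : lowG L k 0 1 = 0 := rfl
@[simp] theorem lowG_apply_one_zero (L : ℕ) (k : ℤ) : lowG L k 1 0 = k * L := rfl
@[simp] theorem lowG_apply_one_one (L : ℕ) (k : ℤ) : lowG L k 1 1 = 1 := rfl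

theorem lowG_add (L : ℕ) (k k' : ℤ) : lowG L (k + k') = lowG L k * lowG L k' := by
  apply Subtype.ext
  rw [Matrix.SpecialLinearGroup.coe_mul]
  simp only [lowG, Matrix.mul_fin_two]
  congr 1
  ext i j
  fin_cases i <;> fin_cases j <;> simp <;> ring

theorem lowG_zero (L : ℕ) : lowG L 0 = 1 := by
  ext i j
  fin_cases i <;> fin_cases j <;> simp [lowG]

theorem lowG_neg (L : ℕ) (k : ℤ) : lowG L (-k) = (lowG L k)⁻¹ := by
  rw [eq_inv_iff_mul_eq_one, ← lowG_add, neg_add_cancel, lowG_zero]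

theorem lowG_mem_Gamma0 (L : ℕ) (k : ℤ) : lowG L k ∈ Gamma0 L := by
  rw [Gamma0_mem, lowG_apply_one_zero]
  simp

theorem lowG_mem_Gamma0_mul {L q : ℕ} {k : ℤ} (h : (q : ℤ) ∣ k) : lowG L k ∈ Gamma0 (L * q) := by
  rw [Gamma0_mem, lowG_apply_one_zero, ZMod.intCast_zmod_eq_zero_iff_dvd]
  obtain ⟨c, rfl⟩ := h
  exact ⟨c, by push_cast; ring⟩

/-- `f ∣ lowG L k` only depends on `k mod q` when `f` is invariant under `Γ₀(L q)`. -/
theorem slash_lowG_congr {L q : ℕ} {f : ℍ → ℂ} (hf : TOR.NF.Inv (L * q) f) {k k' : ℤ}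
    (h : (q : ℤ) ∣ k - k') :
    f ∣[(2 : ℤ)] mapGL ℝ (lowG L k) = f ∣[(2 : ℤ)] mapGL ℝ (lowG L k') := by
  have h1 : lowG L k = lowG L (k - k') * lowG L k' := by rw [← lowG_add, sub_add_cancel]
  rw [h1, map_mul, SlashAction.slash_mul,
    hf.forall _ ⟨lowG L (k - k'), lowG_mem_Gamma0_mul h, rfl⟩]

/-- the trace from level `L q` to level `L` (`q ∣ L`), on functions. -/
def trQ (L q : ℕ) [NeZero q] (f : ℍ → ℂ) : ℍ → ℂ :=
  ∑ j : ZMod q, f ∣[(2 : ℤ)] mapGL ℝ (lowG L (j.val : ℤ))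

end Fermat.Agent.CAR.WN
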