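import Fermat.Agent.CAR.WN.Defs

/-!
# CAR / WN-3 : the trace from level `L q` to level `L` commutes with `T_ℓ`, `ℓ ∤ L q`

`T f = ∑_β f ∣ β`, `β_b = [[1,b],[0,ℓ]]`, `β_∞ = [[ℓ,0],[0,1]]`.  Matrix identities
* `β_b * lowG (ℓ k) = d * (lowG (ℓ² k) * β_b)` with `d ∈ Γ₀(L q)` (here `q ∣ L` is used),
* `β_∞ * lowG (ℓ k) = lowG k * β_∞`,
and the reindexings `k ↦ ℓ k`, `k ↦ ℓ² k` of `ZMod q`.
-/

set_option autoImplicit false

open Matrix.SpecialLinearGroup UpperHalfPlane CongruenceSubgroup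
open Fermat.Agent.TOR Fermat.Agent.TOR.NF
open scoped MatrixGroups ModularForm
open P2MW.S_ModularForm_heckeT_slash_eq_self_of_mem_Gamma0.ModularForm.HeckeSlashInvariance

noncomputable section

namespace Fermat.Agent.CAR.WN

variable {L q : ℕ}

theorem TrComm_det_low (L : ℕ) (k : ℤ) : 0 < (!![1, 0; k * (L : ℤ), 1]).det := by
  rw [Matrix.det_fin_two_of]; norm_num

theorem TrComm_mapGL_lowG (L : ℕ) (k : ℤ) :
    mapGL ℝ (lowG L k) = glZ !![1, 0; k * (L : ℤ), 1] (TrComm_det_low L k) := by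
  rw [mapGL_eq_glZ]
  rfl

/-- reindexing of the trace by a unit of `ZMod q`. -/
theorem TrComm_trQ_reindex [NeZero q] (hq : q.Prime) {g : ℍ → ℂ} (hg : Inv (L * q) g) (u : ℤ)
    (hu : (u : ZMod q) ≠ 0) :
    trQ L q g = ∑ j : ZMod q, g ∣[(2 : ℤ)] mapGL ℝ (lowG L (u * (j.val : ℤ))) := by
  have : Fact q.Prime := ⟨hq⟩
  rw [trQ, ← Equiv.sum_comp (Equiv.mulLeft₀ (u : ZMod q) hu) (fun j : ZMod q =>
    g ∣[(2 : ℤ)] mapGL ℝ (lowG L (j.val : ℤ)))]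
  refine Finset.sum_congr rfl fun j _ => ?_
  apply slash_lowG_congr hg
  rw [← ZMod.intCast_zmod_eq_zero_iff_dvd]
  push_cast
  rw [ZMod.natCast_zmod_val, ZMod.natCast_zmod_val, Equiv.mulLeft₀_apply, sub_self]

/-- commutation, term by term (finite part). -/
theorem TrComm_slash_heckeMatrix_lowG (hqL : q ∣ L) {ℓ : ℕ} (hℓ : 0 < ℓ) {f : ℍ → ℂ}
    (hf : Inv (L * q) f) (b : ℕ) (k : ℤ) :
    (f ∣[(2 : ℤ)] ModularForm.heckeMatrix ℓ b) ∣[(2 : ℤ)] mapGL ℝ (lowG L ((ℓ : ℤ) * k)) =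
      (f ∣[(2 : ℤ)] mapGL ℝ (lowG L ((ℓ : ℤ) * (ℓ : ℤ) * k))) ∣[(2 : ℤ)]
        ModularForm.heckeMatrix ℓ b := by
  have hℓZ : (0 : ℤ) < ℓ := by exact_mod_cast hℓ
  have hβ : 0 < (!![1, (b : ℤ); 0, (ℓ : ℤ)]).det := by
    rw [Matrix.det_fin_two_of]; simpa using hℓZ
  set x : ℤ := b * ℓ * k * L with hx
  set C : Matrix (Fin 2) (Fin 2) ℤ := !![1 + x, (b : ℤ); (ℓ : ℤ) * ℓ * k * L, (ℓ : ℤ)] with hC
  set E : Matrix (Fin 2) (Fin 2) ℤ :=
    !![1, (b : ℤ); (ℓ : ℤ) * ℓ * k * L, (ℓ : ℤ) * x + ℓ] with hE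
  set d : Matrix (Fin 2) (Fin 2) ℤ :=
    !![1 + x + x * x, -((b : ℤ) * b * k * L); (ℓ : ℤ) * ℓ * k * L * x, 1 - x] with hd
  have hCdet : 0 < C.det := by
    have : C.det = ℓ := by
      rw [hC, Matrix.det_fin_two_of, hx]; ring
    rw [this]; exact hℓZ
  have hEdet : 0 < E.det := by
    have : E.det = ℓ := by
      rw [hE, Matrix.det_fin_two_of, hx]; ring
    rw [this]; exact hℓZ
  have hddet1 : d.det = 1 := by
    rw [hd, Matrix.det_fin_two_of, hx]; ring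
  have hddet : 0 < d.det := by rw [hddet1]; exact one_pos
  have hdN : ((L * q : ℕ) : ℤ) ∣ d 1 0 := by
    obtain ⟨c, hc⟩ := hqL
    have : d 1 0 = (ℓ : ℤ) * ℓ * k * L * x := by simp [hd]
    rw [this, hx]
    refine ⟨(ℓ : ℤ) * ℓ * k * b * ℓ * k * c, ?_⟩
    have hc' : (L : ℤ) = q * c := by exact_mod_cast hc
    push_cast
    calc (ℓ : ℤ) * ℓ * k * L * (b * ℓ * k * L) = (ℓ : ℤ) * ℓ * k * L * (b * ℓ * k * (q * c)) := by
          rw [← hc']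
      _ = _ := by ring
  have hm1 : !![1, (b : ℤ); 0, (ℓ : ℤ)] * !![1, 0; (ℓ : ℤ) * k * (L : ℤ), 1] = C := by
    ext i j
    fin_cases i <;> fin_cases j <;>
      simp only [hC, hx, Matrix.mul_apply, Fin.sum_univ_two, Matrix.of_apply, Fin.zero_eta,
        Fin.mk_one, Fin.isValue, Matrix.cons_val', Matrix.cons_val_zero, Matrix.cons_val_one,
        Matrix.cons_val_fin_one] <;> ring
  have hm2 : !![1, 0; (ℓ : ℤ) * (ℓ : ℤ) * k * (L : ℤ), 1] * !![1, (b : ℤ); 0, (ℓ : ℤ)] = E := by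
    ext i j
    fin_cases i <;> fin_cases j <;>
      simp only [hE, hx, Matrix.mul_apply, Fin.sum_univ_two, Matrix.of_apply, Fin.zero_eta,
        Fin.mk_one, Fin.isValue, Matrix.cons_val', Matrix.cons_val_zero, Matrix.cons_val_one,
        Matrix.cons_val_fin_one] <;> ring
  have hm3 : d * E = C := by
    ext i j
    fin_cases i <;> fin_cases j <;>
      simp only [hC, hd, hE, hx, Matrix.mul_apply, Fin.sum_univ_two, Matrix.of_apply, Fin.zero_eta,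
        Fin.mk_one, Fin.isValue, Matrix.cons_val', Matrix.cons_val_zero, Matrix.cons_val_one,
        Matrix.cons_val_fin_one] <;> ring
  rw [heckeMatrix_eq_glZ hℓ.ne' b hβ, TrComm_mapGL_lowG, TrComm_mapGL_lowG,
    slash_glZ_mul 2 hβ (TrComm_det_low L _) hCdet hm1,
    slash_glZ_mul 2 (TrComm_det_low L _) hβ hEdet hm2,
    ← slash_glZ_mul 2 hddet hEdet hCdet hm3, hf d hddet hddet1 hdN]

/-- commutation, term by term (the diagonal matrix). -/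
theorem TrComm_slash_heckeDiagMatrix_lowG {ℓ : ℕ} (hℓ : 0 < ℓ) (f : ℍ → ℂ) (k : ℤ) :
    (f ∣[(2 : ℤ)] ModularForm.heckeDiagMatrix ℓ) ∣[(2 : ℤ)] mapGL ℝ (lowG L ((ℓ : ℤ) * k)) =
      (f ∣[(2 : ℤ)] mapGL ℝ (lowG L k)) ∣[(2 : ℤ)] ModularForm.heckeDiagMatrix ℓ := by
  have hℓZ : (0 : ℤ) < ℓ := by exact_mod_cast hℓ
  have hβ : 0 < (!![(ℓ : ℤ), 0; 0, 1]).det := by
    rw [Matrix.det_fin_two_of]; simpa using hℓZ
  set C : Matrix (Fin 2) (Fin 2) ℤ := !![(ℓ : ℤ), 0; (ℓ : ℤ) * k * L, 1] with hC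
  have hCdet : 0 < C.det := by
    have : C.det = ℓ := by
      rw [hC, Matrix.det_fin_two_of]; ring
    rw [this]; exact hℓZ
  have hm1 : !![(ℓ : ℤ), 0; 0, 1] * !![1, 0; (ℓ : ℤ) * k * (L : ℤ), 1] = C := by
    ext i j
    fin_cases i <;> fin_cases j <;>
      simp only [hC, Matrix.mul_apply, Fin.sum_univ_two, Matrix.of_apply, Fin.zero_eta,
        Fin.mk_one, Fin.isValue, Matrix.cons_val', Matrix.cons_val_zero, Matrix.cons_val_one,
        Matrix.cons_val_fin_one] <;> ring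
  have hm2 : !![1, 0; k * (L : ℤ), 1] * !![(ℓ : ℤ), 0; 0, 1] = C := by
    ext i j
    fin_cases i <;> fin_cases j <;>
      simp only [hC, Matrix.mul_apply, Fin.sum_univ_two, Matrix.of_apply, Fin.zero_eta,
        Fin.mk_one, Fin.isValue, Matrix.cons_val', Matrix.cons_val_zero, Matrix.cons_val_one,
        Matrix.cons_val_fin_one] <;> ring
  rw [heckeDiagMatrix_eq_glZ hℓ.ne' hβ, TrComm_mapGL_lowG, TrComm_mapGL_lowG,
    slash_glZ_mul 2 hβ (TrComm_det_low L _) hCdet hm1,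
    slash_glZ_mul 2 (TrComm_det_low L _) hβ hCdet hm2]

theorem heckeT_trQ [NeZero q] (hq : q.Prime) (hqL : q ∣ L) {ℓ : ℕ} (hℓ : ℓ.Prime)
    (hℓN : ¬ ℓ ∣ L * q) {f : ℍ → ℂ} (hf : Inv (L * q) f) :
    ModularForm.heckeT 2 ℓ (trQ L q f) = trQ L q (ModularForm.heckeT 2 ℓ f) := by
  have : Fact q.Prime := ⟨hq⟩
  have : NeZero ℓ := ⟨hℓ.ne_zero⟩
  have hℓq : ¬ ℓ ∣ q := fun h' => hℓN (h'.mul_left _)
  have hu : (((ℓ : ℕ) : ℤ) : ZMod q) ≠ 0 := by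
    rw [Int.cast_natCast, Ne, ZMod.natCast_eq_zero_iff]
    intro h
    rw [Nat.prime_dvd_prime_iff_eq hq hℓ] at h
    exact hℓq (h ▸ dvd_rfl)
  have hu2 : ((((ℓ : ℕ) : ℤ) * ((ℓ : ℕ) : ℤ) : ℤ) : ZMod q) ≠ 0 := by
    rw [Int.cast_mul]
    exact mul_ne_zero hu hu
  rw [TrComm_trQ_reindex hq (hf.heckeT hℓ hℓN) (ℓ : ℤ) hu]
  rw [ModularForm.heckeT_eq_heckeU_add, ModularForm.heckeT_eq_heckeU_add,
    heckeU_eq_sum_zmod, heckeU_eq_sum_zmod]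
  simp only [SlashAction.add_slash, SlashAction.sum_slash, Finset.sum_add_distrib]
  congr 1
  · rw [Finset.sum_comm]
    refine Finset.sum_congr rfl fun b _ => ?_
    rw [TrComm_trQ_reindex hq hf ((ℓ : ℤ) * (ℓ : ℤ)) hu2, SlashAction.sum_slash]
    refine Finset.sum_congr rfl fun k _ => ?_
    rw [TrComm_slash_heckeMatrix_lowG hqL hℓ.pos hf]
  · rw [trQ, SlashAction.sum_slash]
    refine Finset.sum_congr rfl fun k _ => ?_
    rw [TrComm_slash_heckeDiagMatrix_lowG hℓ.pos]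

end Fermat.Agent.CAR.WN
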