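import Fermat.Agent.CAR.WN.Defs

/-!
# CAR / WN-2 : the trace `∑_j f ∣ [[1,0],[jL,1]]` is a cusp form of level `L`; change of auxiliary level
-/

set_option autoImplicit false

open Matrix.SpecialLinearGroup UpperHalfPlane CongruenceSubgroup ModularFormClass
open Fermat.Agent.TOR Fermat.Agent.TOR.NF
open scoped MatrixGroups ModularForm Manifold

noncomputable section

namespace Fermat.Agent.CAR.WN

variable {L q : ℕ}

theorem TrInv_cover [NeZero q] (hq : q.Prime) (hqL : q ∣ L) (g : SL(2, ℤ)) (hg : g ∈ Gamma0 L) :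
    ∃ i : ZMod q, g * (lowG L (i.val : ℤ))⁻¹ ∈ Gamma0 (L * q) := by
  have : Fact q.Prime := ⟨hq⟩
  rw [mem_Gamma0_iff] at hg
  obtain ⟨g', hg'⟩ := hg
  have hdet : g 0 0 * g 1 1 - g 0 1 * g 1 0 = 1 := by
    have := g.2
    rwa [Matrix.det_fin_two] at this
  have hq10 : ((g 1 0 : ℤ) : ZMod q) = 0 := by
    rw [ZMod.intCast_zmod_eq_zero_iff_dvd, hg']
    exact Dvd.dvd.mul_right (by exact_mod_cast hqL) _
  have h11 : ((g 1 1 : ℤ) : ZMod q) ≠ 0 := by
    intro h0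
    have h1 := congrArg (fun z : ℤ => (z : ZMod q)) hdet
    simp only [Int.cast_sub, Int.cast_mul, h0, hq10, mul_zero, sub_zero, Int.cast_one] at h1
    exact zero_ne_one h1
  set x : ZMod q := (g' : ZMod q) * ((g 1 1 : ℤ) : ZMod q)⁻¹ with hx
  refine ⟨x, ?_⟩
  have key : (q : ℤ) ∣ g' - g 1 1 * (x.val : ℤ) := by
    rw [← ZMod.intCast_zmod_eq_zero_iff_dvd]
    push_cast
    rw [ZMod.natCast_zmod_val, hx]
    field_simp
    ring
  obtain ⟨t, ht⟩ := key
  rw [mem_Gamma0_iff, mul_inv_one_zero, lowG_apply_one_one, lowG_apply_one_zero, hg']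
  refine ⟨t, ?_⟩
  push_cast
  linear_combination (L : ℤ) * ht

theorem TrInv_dist [NeZero q] (hL : L ≠ 0) (i j : ZMod q)
    (hij : lowG L (i.val : ℤ) * (lowG L (j.val : ℤ))⁻¹ ∈ Gamma0 (L * q)) : i = j := by
  have hLZ : (L : ℤ) ≠ 0 := by exact_mod_cast hL
  rw [mem_Gamma0_iff, mul_inv_one_zero, lowG_apply_one_one, lowG_apply_one_zero,
    lowG_apply_one_one, lowG_apply_one_zero] at hij
  obtain ⟨t, ht⟩ := hij
  have h1 : (q : ℤ) ∣ (i.val : ℤ) - (j.val : ℤ) := by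
    refine ⟨t, ?_⟩
    apply mul_left_cancel₀ hLZ
    push_cast at ht
    linear_combination ht
  rw [← ZMod.intCast_zmod_eq_zero_iff_dvd] at h1
  push_cast at h1
  rw [ZMod.natCast_zmod_val, ZMod.natCast_zmod_val, sub_eq_zero] at h1
  exact h1

theorem inv_trQ [NeZero q] (hq : q.Prime) (hqL : q ∣ L) (hL : L ≠ 0) {f : ℍ → ℂ}
    (hf : Inv (L * q) f) : Inv L (trQ L q f) := by
  apply Inv.of_forall
  rintro _ ⟨γ, hγ, rfl⟩
  exact sum_slash_reps_invariant 2 (Gamma0 (L * q)) (Gamma0 L)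
    (fun j : ZMod q => lowG L (j.val : ℤ)) (fun j => lowG_mem_Gamma0 L _)
    (TrInv_cover hq hqL) (TrInv_dist hL) f (fun g hg => hf.forall _ ⟨g, hg, rfl⟩) γ hγ

theorem exists_trQForm [NeZero q] [NeZero (L * q)] (hq : q.Prime) (hqL : q ∣ L)
    (f : CuspForm (Gamma0 (L * q)) 2) :
    ∃ F : CuspForm (Gamma0 L) 2, ⇑F = trQ L q ⇑f := by
  have hL : L ≠ 0 := left_ne_zero_of_mul (NeZero.ne (L * q))
  have : NeZero L := ⟨hL⟩
  refine ⟨{ toFun := trQ L q ⇑f
            slash_action_eq' := (inv_trQ hq hqL hL (inv_cuspForm f)).forall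
            holo' := ?_
            zero_at_cusps' := ?_ }, rfl⟩
  · exact Finset.sum_induction_nonempty _ (fun g : ℍ → ℂ => MDiff g)
      (fun _ _ ha hb => ha.add hb) Finset.univ_nonempty
      (fun j _ => (CuspFormClass.holo f).slash 2 _)
  · intro c hc
    refine Finset.sum_induction_nonempty _ (fun g : ℍ → ℂ => c.IsZeroAt g 2)
      (fun _ _ ha hb => ha.add hb) Finset.univ_nonempty (fun j _ => ?_)
    rw [mapGL_eq_glZ]
    exact P2MW.S_CuspFormClass_isZeroAt_heckeU.ModularForm.S06W2.isZeroAt_slash_ratCast f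
      (glQ _ _) (isCusp_Gamma0_of_isCusp_Gamma0 hc)

theorem TrInv_lowG_mul (a L : ℕ) (k : ℤ) : lowG (a * L) k = lowG L (a * k) := by
  ext i j
  fin_cases i <;> fin_cases j <;> simp [lowG]
  ring

/-- change of auxiliary level. -/
theorem trQ_mul_left [NeZero q] (a : ℕ) (ha : a.Coprime q) {f : ℍ → ℂ} (hf : Inv (L * q) f) :
    trQ (a * L) q f = trQ L q f := by
  unfold trQ
  rw [← Equiv.sum_comp (Units.mulLeft (ZMod.unitOfCoprime a ha))
    (fun j : ZMod q => f ∣[(2 : ℤ)] mapGL ℝ (lowG L (j.val : ℤ)))]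
  refine Finset.sum_congr rfl fun j _ => ?_
  rw [TrInv_lowG_mul]
  apply slash_lowG_congr hf
  rw [← ZMod.intCast_zmod_eq_zero_iff_dvd]
  push_cast
  rw [ZMod.natCast_zmod_val, ZMod.natCast_zmod_val]
  simp

end Fermat.Agent.CAR.WN
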