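import Fermat.Agent.CAR.WN.ULower
import Fermat.Agent.CAR.WN.TrInv
import Fermat.Agent.CAR.WN.TrComm

/-!
# CAR / WN-4 : a newform of level `L q`, `q ∣ L`, is killed by `U_q` and by the trace to level `L`
-/

set_option autoImplicit false

open Matrix.SpecialLinearGroup UpperHalfPlane CongruenceSubgroup ModularFormClass
open Fermat.Agent.TOR Fermat.Agent.TOR.NF Fermat.Agent.S49
open scoped MatrixGroups ModularForm

noncomputable section

namespace Fermat.Agent.CAR.WN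

variable {L q : ℕ}

/-- a cusp form of level `L` with the good eigenvalues of a newform of level `L q` vanishes. -/
theorem eq_zero_of_isNewform [NeZero (L * q)] (hq : q.Prime)
    {g : CuspForm (Gamma0 (L * q)) 2} (hg : g.IsNewform) (F : CuspForm (Gamma0 L) 2)
    (hF : ∀ ℓ : ℕ, ℓ.Prime → ¬ ℓ ∣ L * q → ModularForm.heckeT 2 ℓ ⇑F = qCoeff g ℓ • ⇑F) :
    F = 0 := by
  have hL : L ≠ 0 := fun h0 => NeZero.ne (L * q) (by rw [h0, zero_mul])
  have : NeZero L := ⟨hL⟩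
  by_contra hne
  obtain ⟨e, he, he'⟩ := exists_normalizedEigenform_of_ne_zero (fun ℓ => ¬ ℓ ∣ L * q)
    (fun ℓ => qCoeff g ℓ) F hne (by
      intro ℓ hℓ hℓL hℓN
      apply DFunLike.coe_injective
      rw [CuspForm.coe_heckeTLin_apply, hF ℓ hℓ hℓN]
      rfl)
  refine hg.2 L (Dvd.intro q rfl) ?_ ⟨e, he, fun ℓ hℓ hℓN =>
    he' ℓ hℓ (fun h' => hℓN (h'.mul_right _)) hℓN⟩
  intro hEq
  have h2 := hq.two_le
  have : L * 1 < L * q := Nat.mul_lt_mul_of_pos_left (by omega) (Nat.pos_of_ne_zero hL)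
  omega

theorem heckeT_eq_smul_of_isNewform [NeZero (L * q)]
    {g : CuspForm (Gamma0 (L * q)) 2} (hg : g.IsNewform) (ℓ : ℕ) (hℓ : ℓ.Prime)
    (hℓN : ¬ ℓ ∣ L * q) : ModularForm.heckeT 2 ℓ ⇑g = qCoeff g ℓ • ⇑g :=
  congrArg (fun F : CuspForm (Gamma0 (L * q)) 2 => (⇑F : ℍ → ℂ)) (heckeTLin_eq_smul hg.1 hℓ hℓN)

theorem heckeU_eq_zero_of_isNewform [NeZero (L * q)] (hq : q.Prime) (hqL : q ∣ L)
    {g : CuspForm (Gamma0 (L * q)) 2} (hg : g.IsNewform) :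
    ModularForm.heckeU 2 q ⇑g = 0 := by
  obtain ⟨F, hF⟩ := exists_uLow hq hqL g
  have h0 : F = 0 := by
    refine eq_zero_of_isNewform hq hg F fun ℓ hℓ hℓN => ?_
    have hℓq : ¬ ℓ ∣ q := fun h' => hℓN (h'.mul_left _)
    have hcop : ℓ.Coprime q := (Nat.Prime.coprime_iff_not_dvd hℓ).mpr hℓq
    rw [hF, ModularFormClass.heckeT_heckeU_comm g (one_mem_strictPeriods_Gamma0 _) hcop,
      heckeT_eq_smul_of_isNewform hg ℓ hℓ hℓN, ModularForm.heckeU_smul]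
  rw [← hF, h0]
  rfl

theorem qCoeff_eq_zero_of_isNewform [NeZero (L * q)] (hq : q.Prime) (hqL : q ∣ L)
    {g : CuspForm (Gamma0 (L * q)) 2} (hg : g.IsNewform) : qCoeff g q = 0 := by
  have hU : ModularForm.heckeU 2 q ⇑g = qCoeff g q • ⇑g :=
    congrArg (fun F : CuspForm (Gamma0 (L * q)) 2 => (⇑F : ℍ → ℂ))
      (heckeULin_eq_smul hg.1 hq (Dvd.intro_left L rfl))
  rw [heckeU_eq_zero_of_isNewform hq hqL hg] at hU
  by_contra hne
  have hg0 : (⇑g : ℍ → ℂ) = 0 := by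
    have := congrArg (fun f : ℍ → ℂ => (qCoeff g q)⁻¹ • f) hU
    simpa [smul_smul, inv_mul_cancel₀ hne] using this.symm
  exact hg.ne_zero (DFunLike.coe_injective hg0)

theorem trQ_smul [NeZero q] (c : ℂ) (f : ℍ → ℂ) : trQ L q (c • f) = c • trQ L q f := by
  unfold trQ
  rw [Finset.smul_sum]
  refine Finset.sum_congr rfl fun j _ => ?_
  rw [mapGL_eq_glZ, smul_slash_glZ]

theorem trQ_eq_zero_of_isNewform [NeZero q] [NeZero (L * q)] (hq : q.Prime) (hqL : q ∣ L)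
    {g : CuspForm (Gamma0 (L * q)) 2} (hg : g.IsNewform) : trQ L q ⇑g = 0 := by
  obtain ⟨F, hF⟩ := exists_trQForm hq hqL g
  have h0 : F = 0 := by
    refine eq_zero_of_isNewform hq hg F fun ℓ hℓ hℓN => ?_
    rw [hF, heckeT_trQ hq hqL hℓ hℓN (inv_cuspForm g), heckeT_eq_smul_of_isNewform hg ℓ hℓ hℓN,
      trQ_smul]
  rw [← hF, h0]
  rfl

end Fermat.Agent.CAR.WN
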