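import Fermat.Agent.CAR.WN.Defs

/-!
# CAR / WN-5 : the transfer datum `res ∘ cor` for `Γ₀(L q) ≤ Γ₀(L)`, `q ∣ L`

The representatives are `lowG L j`, `j mod q`; `lowG L j * γ = γ' * lowG L (j * a(γ)²)`.
-/

set_option autoImplicit false

open Matrix.SpecialLinearGroup UpperHalfPlane CongruenceSubgroup
open Fermat.Agent.GAL Fermat.Agent.GAL.HK
open scoped MatrixGroups ModularForm

noncomputable section

namespace Fermat.Agent.CAR.WN

variable {L q : ℕ}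

/-- `a d = 1` modulo `q` for `γ ∈ Γ₀(L q)`. -/
theorem SysTr_ad (γ : Gamma0 (L * q)) :
    (((γ : SL(2, ℤ)) 0 0 : ℤ) : ZMod q) * (((γ : SL(2, ℤ)) 1 1 : ℤ) : ZMod q) = 1 := by
  have hc : (((γ : SL(2, ℤ)) 1 0 : ℤ) : ZMod q) = 0 :=
    Gamma0_cast_eq_zero (Dvd.intro_left L rfl) γ
  have hdet := Matrix.SpecialLinearGroup.det_coe (γ : SL(2, ℤ))
  rw [Matrix.det_fin_two] at hdet
  have h := congrArg (fun z : ℤ => (z : ZMod q)) hdet
  push_cast at h
  rw [hc, mul_zero, sub_zero] at h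
  exact h

/-- the permutation `j ↦ j a²`. -/
def SysTr_perm (γ : Gamma0 (L * q)) : Equiv.Perm (ZMod q) where
  toFun j := j * (((γ : SL(2, ℤ)) 0 0 : ℤ) : ZMod q) ^ 2
  invFun j := j * (((γ : SL(2, ℤ)) 1 1 : ℤ) : ZMod q) ^ 2
  left_inv j := by
    have h := SysTr_ad γ
    show j * _ ^ 2 * _ ^ 2 = j
    rw [mul_assoc, ← mul_pow, h, one_pow, mul_one]
  right_inv j := by
    have h := SysTr_ad γ
    show j * _ ^ 2 * _ ^ 2 = j
    rw [mul_assoc, ← mul_pow, mul_comm (((γ : SL(2, ℤ)) 1 1 : ℤ) : ZMod q), h, one_pow, mul_one]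

theorem SysTr_perm_apply (γ : Gamma0 (L * q)) (j : ZMod q) :
    SysTr_perm γ j = j * (((γ : SL(2, ℤ)) 0 0 : ℤ) : ZMod q) ^ 2 := rfl

/-- the lower left entry of `lowG j * γ * lowG (-j')`. -/
theorem SysTr_entry (g : SL(2, ℤ)) (j j' : ℤ) :
    (lowG L j * g * lowG L (-j')) 1 0
      = (L : ℤ) * (j * g 0 0 - g 1 1 * j' - j * j' * L * g 0 1) + g 1 0 := by
  simp only [Matrix.SpecialLinearGroup.coe_mul, Matrix.mul_apply, Fin.sum_univ_two,
    lowG_apply_zero_zero, lowG_apply_one_zero, lowG_apply_one_one]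
  ring

theorem exists_sysTr (hq : q.Prime) (hqL : q ∣ L) :
    ∃ R : RepSystem (Gamma0 (L * q)) (ZMod q),
      ∀ j : ZMod q, R.rep j = mapGL ℝ (lowG L (j.val : ℤ)) := by
  have : NeZero q := ⟨hq.ne_zero⟩
  refine ⟨{ rep := fun j => mapGL ℝ (lowG L (j.val : ℤ))
            perm := SysTr_perm
            perm_mul := ?_
            exists_coc := ?_ }, fun _ => rfl⟩
  · intro γ δ x
    have hδ : (((δ : SL(2, ℤ)) 1 0 : ℤ) : ZMod q) = 0 :=
      Gamma0_cast_eq_zero (Dvd.intro_left L rfl) δ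
    simp only [SysTr_perm_apply, Subgroup.coe_mul, Matrix.SpecialLinearGroup.coe_mul,
      Matrix.mul_apply, Fin.sum_univ_two]
    push_cast
    rw [hδ]
    ring
  · intro γ x
    set j : ℤ := (x.val : ℤ) with hj
    set j' : ℤ := ((SysTr_perm γ x).val : ℤ) with hj'
    have hjc : (j : ZMod q) = x := by rw [hj]; simp
    have hjc' : (j' : ZMod q) = x * (((γ : SL(2, ℤ)) 0 0 : ℤ) : ZMod q) ^ 2 := by
      rw [hj', ← SysTr_perm_apply]; simp
    have hLq : ((L : ℤ) : ZMod q) = 0 := by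
      rw [Int.cast_natCast, ZMod.natCast_eq_zero_iff]; exact hqL
    have hdvd : (q : ℤ) ∣ j * (γ : SL(2, ℤ)) 0 0 - (γ : SL(2, ℤ)) 1 1 * j'
        - j * j' * L * (γ : SL(2, ℤ)) 0 1 := by
      rw [← ZMod.intCast_zmod_eq_zero_iff_dvd]
      push_cast
      rw [hjc, hjc']
      have hL' : ((L : ℕ) : ZMod q) = 0 := by simpa using hLq
      rw [hL']
      have h := SysTr_ad γ
      linear_combination (-x * (((γ : SL(2, ℤ)) 0 0 : ℤ) : ZMod q)) * h
    have hmem : lowG L j * (γ : SL(2, ℤ)) * lowG L (-j') ∈ Gamma0 (L * q) := by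
      rw [mem_Gamma0_iff_dvd', SysTr_entry]
      refine dvd_add ?_ ((mem_Gamma0_iff_dvd' _).mp γ.2)
      push_cast
      exact mul_dvd_mul_left _ hdvd
    refine ⟨⟨_, hmem⟩, ?_⟩
    show mapGL ℝ (lowG L j) * mapGL ℝ (γ : SL(2, ℤ))
      = mapGL ℝ (lowG L j * (γ : SL(2, ℤ)) * lowG L (-j')) * mapGL ℝ (lowG L j')
    rw [← map_mul, ← map_mul, lowG_neg, inv_mul_cancel_right]

def sysTr (hq : q.Prime) (hqL : q ∣ L) : RepSystem (Gamma0 (L * q)) (ZMod q) :=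
  (exists_sysTr hq hqL).choose

theorem sysTr_rep (hq : q.Prime) (hqL : q ∣ L) (j : ZMod q) :
    (sysTr hq hqL).rep j = mapGL ℝ (lowG L (j.val : ℤ)) := (exists_sysTr hq hqL).choose_spec j

/-- `res ∘ cor` for `Γ₀(L q) ≤ Γ₀(L)`. -/
def datumTr [NeZero q] (hq : q.Prime) (hqL : q ∣ L) : HeckeDatum (Gamma0 (L * q)) :=
  (sysTr hq hqL).toDatum

end Fermat.Agent.CAR.WN
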