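import Fermat.Agent.CAR.WN.Coh
import Fermat.Agent.TOR.AnU.Main

/-!
# CAR / WN-7 : the multiplicative trace of character functions

`trFun L q a τ = ∏_{j mod q} a (g_j τ)`, `g_j = [[1,0],[jL,1]]`.  If `a` has character `P` on
`Γ₀(L q)` then `trFun L q a` has character `(res ∘ cor) P`.
-/

set_option autoImplicit false

open Matrix.SpecialLinearGroup UpperHalfPlane CongruenceSubgroup ModularFormClass
open ModularCurve ModularCurve.Period
open Fermat.Agent.TOR Fermat.Agent.TOR.NF Fermat.Agent.GAL Fermat.Agent.GAL.HK Fermat.Agent.GAL.AN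
open Fermat.Agent.S24 Fermat.Agent.GR.HeckeField
open scoped MatrixGroups ModularForm

noncomputable section

namespace Fermat.Agent.CAR.WN

variable {L q : ℕ}

/-- `∏_j a(g_j τ)`. -/
def trFun (L q : ℕ) [NeZero q] (a : ℍ → ℂ) : ℍ → ℂ :=
  fun τ => ∏ j : ZMod q, a (lowG L (j.val : ℤ) • τ)

theorem TrFun_eq_prod [NeZero q] (a : ℍ → ℂ) :
    trFun L q a = ∏ j : ZMod q, actFun (lowG L (j.val : ℤ))⁻¹ a := by
  funext τ
  rw [Finset.prod_apply]
  simp only [trFun, actFun, inv_inv]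

theorem trFun_mem [NeZero q] (a : MerMod (L * q)) : trFun L q a.1 ∈ MerMod (L * q) := by
  rw [TrFun_eq_prod]
  exact Subalgebra.prod_mem _ fun j _ => actFun_mem _ a.2

/-- the transfer on `HPar`. -/
def trP [NeZero q] (hq : q.Prime) (hqL : q ∣ L) {n : ℕ} (P : HPar (L * q) n) : HPar (L * q) n :=
  ⟨(datumTr hq hqL).T (ZMod n) (P : Additive (Gamma0 (L * q)) →+ ZMod n),
    datumTr_isParabolicHom hq hqL _ P.2⟩

theorem isCharFun_trFun [NeZero q] (hq : q.Prime) (hqL : q ∣ L) {n : ℕ} [NeZero n]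
    (a : MerMod (L * q)) (P : HPar (L * q) n) (ha : IsCharFun (L * q) n a P) :
    IsCharFun (L * q) n ⟨trFun L q a.1, trFun_mem a⟩ (trP hq hqL P) := by
  intro γ τ
  show trFun L q a.1 ((γ : SL(2, ℤ)) • τ) =
    eN n ((datumTr hq hqL).T (ZMod n) (P : Additive (Gamma0 (L * q)) →+ ZMod n)
      (Additive.ofMul γ)) * trFun L q a.1 τ
  have hprod : ∀ σ : ℍ, trFun L q a.1 σ =
      ∏ x : (datumTr hq hqL).ι, a.1 ((sysTr hq hqL).rep x • σ) := by
    intro σ
    show ∏ j : ZMod q, a.1 (lowG L (j.val : ℤ) • σ) = ∏ x : ZMod q, a.1 ((sysTr hq hqL).rep x • σ)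
    refine Finset.prod_congr rfl fun j _ => ?_
    rw [sysTr_rep]
    rfl
  rw [hprod, hprod, HeckeDatum.T_apply, eN_sum,
    ← Equiv.prod_comp ((datumTr hq hqL).perm γ) (fun j => a.1 ((sysTr hq hqL).rep j • τ)),
    ← Finset.prod_mul_distrib]
  refine Finset.prod_congr rfl fun x _ => ?_
  have h1 : (sysTr hq hqL).rep x • ((γ : SL(2, ℤ)) • τ) =
      (((datumTr hq hqL).coc γ x : Gamma0 (L * q)) : SL(2, ℤ)) •
        ((sysTr hq hqL).rep ((datumTr hq hqL).perm γ x) • τ) :=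
    (sysTr hq hqL).rep_smul_smul γ x τ
  rw [h1, ha]

end Fermat.Agent.CAR.WN
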