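import Fermat.Agent.CAR.WN.Defs

/-!
# CAR / WN-1 : `U_q` lowers the level from `L * q` to `L` when `q ∣ L`
-/

set_option autoImplicit false

open Matrix.SpecialLinearGroup UpperHalfPlane CongruenceSubgroup ModularFormClass
open Fermat.Agent.TOR Fermat.Agent.TOR.NF Fermat.Agent.GAL Fermat.Agent.GAL.HK
open P2MW.S_ModularForm_heckeT_slash_eq_self_of_mem_Gamma0.ModularForm.HeckeSlashInvariance
open scoped MatrixGroups ModularForm

noncomputable section

namespace Fermat.Agent.CAR.WN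

variable {L q : ℕ}

/-- term by term: `[[1,b],[0,q]] g = d [[1,b'],[0,q]]` with `d ∈ Γ₀(L q)`. -/
theorem ULower_slash_term (hq : 0 < q) {f : ℍ → ℂ} (hf : Inv (L * q) f)
    {A : Matrix (Fin 2) (Fin 2) ℤ} (hA : 0 < A.det) (hdet : A.det = 1) (hd : (L : ℤ) ∣ A 1 0)
    (b b' : ℕ)
    (hbb' : (q : ℤ) ∣ A 0 1 + b * A 1 1 - b' * (A 0 0 + b * A 1 0)) :
    (f ∣[(2 : ℤ)] ModularForm.heckeMatrix q b) ∣[(2 : ℤ)] glZ A hA =
      f ∣[(2 : ℤ)] ModularForm.heckeMatrix q b' := by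
  have hqZ : (0 : ℤ) < q := by exact_mod_cast hq
  obtain ⟨e, he⟩ := hbb'
  have hdet' : A 0 0 * A 1 1 - A 0 1 * A 1 0 = 1 := by
    rw [← Matrix.det_fin_two]; exact hdet
  have hβ : ∀ j : ℕ, 0 < (!![1, (j : ℤ); 0, (q : ℤ)]).det := by
    intro j
    rw [Matrix.det_fin_two_of]; simpa using hqZ
  set D : Matrix (Fin 2) (Fin 2) ℤ :=
    !![A 0 0 + b * A 1 0, e; (q : ℤ) * A 1 0, A 1 1 - b' * A 1 0] with hD
  have hDdet1 : D.det = 1 := by
    rw [hD, Matrix.det_fin_two_of]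
    linear_combination hdet' + A 1 0 * he
  have hDdet : 0 < D.det := by rw [hDdet1]; exact one_pos
  set C : Matrix (Fin 2) (Fin 2) ℤ :=
    !![A 0 0 + b * A 1 0, A 0 1 + b * A 1 1; (q : ℤ) * A 1 0, (q : ℤ) * A 1 1] with hC
  have hCdet : 0 < C.det := by
    have : C.det = q := by
      rw [hC, Matrix.det_fin_two_of]
      linear_combination (q : ℤ) * hdet'
    rw [this]; exact hqZ
  have hm1 : !![1, (b : ℤ); 0, (q : ℤ)] * A = C := by
    ext i k
    fin_cases i <;> fin_cases k <;>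
      simp only [hC, Matrix.mul_apply, Fin.sum_univ_two, Matrix.of_apply, Fin.zero_eta,
        Fin.mk_one, Fin.isValue, Matrix.cons_val', Matrix.cons_val_zero, Matrix.cons_val_one,
        Matrix.cons_val_fin_one] <;> ring
  have hm2 : D * !![1, (b' : ℤ); 0, (q : ℤ)] = C := by
    ext i k
    fin_cases i <;> fin_cases k <;>
      simp only [hC, hD, Matrix.mul_apply, Fin.sum_univ_two, Matrix.of_apply, Fin.zero_eta,
        Fin.mk_one, Fin.isValue, Matrix.cons_val', Matrix.cons_val_zero, Matrix.cons_val_one,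
        Matrix.cons_val_fin_one]
    · ring
    · linear_combination -he
    · ring
    · ring
  have hDinv : f ∣[(2 : ℤ)] glZ D hDdet = f := by
    apply hf D hDdet hDdet1
    obtain ⟨c, hc⟩ := hd
    refine ⟨c, ?_⟩
    simp only [hD, Matrix.of_apply, Matrix.cons_val', Matrix.cons_val_zero, Matrix.cons_val_one,
      Matrix.cons_val_fin_one]
    rw [hc]; push_cast; ring
  rw [heckeMatrix_eq_glZ hq.ne' b (hβ b), heckeMatrix_eq_glZ hq.ne' b' (hβ b'),
    slash_glZ_mul 2 (hβ b) hA hCdet hm1, ← slash_glZ_mul 2 hDdet (hβ b') hCdet hm2, hDinv]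

theorem inv_heckeU_lower (hq : q.Prime) (hqL : q ∣ L) {f : ℍ → ℂ} (hf : Inv (L * q) f) :
    Inv L (ModularForm.heckeU 2 q f) := by
  have : Fact q.Prime := ⟨hq⟩
  have : NeZero q := ⟨hq.ne_zero⟩
  intro A hA hdet hd
  have hdet' : A 0 0 * A 1 1 - A 0 1 * A 1 0 = 1 := by
    rw [← Matrix.det_fin_two]; exact hdet
  have hC0 : ((A 1 0 : ℤ) : ZMod q) = 0 := by
    rw [ZMod.intCast_zmod_eq_zero_iff_dvd]
    exact (Int.natCast_dvd_natCast.mpr hqL).trans hd
  have hAD : ((A 0 0 : ℤ) : ZMod q) * ((A 1 1 : ℤ) : ZMod q) = 1 := by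
    have := congrArg (fun z : ℤ => (z : ZMod q)) hdet'
    simp only [Int.cast_sub, Int.cast_mul, Int.cast_one, hC0, mul_zero, sub_zero] at this
    exact this
  have hD0 : ((A 1 1 : ℤ) : ZMod q) * ((A 1 1 : ℤ) : ZMod q) ≠ 0 := by
    have h1 : ((A 1 1 : ℤ) : ZMod q) ≠ 0 := by
      intro h0
      rw [h0, mul_zero] at hAD
      exact zero_ne_one hAD
    exact mul_ne_zero h1 h1
  set σ : ZMod q ≃ ZMod q :=
    (Equiv.mulRight₀ (((A 1 1 : ℤ) : ZMod q) * ((A 1 1 : ℤ) : ZMod q)) hD0).trans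
      (Equiv.addLeft (((A 0 1 : ℤ) : ZMod q) * ((A 1 1 : ℤ) : ZMod q))) with hσ
  rw [heckeU_eq_sum_zmod, SlashAction.sum_slash,
    ← Equiv.sum_comp σ (fun x : ZMod q => f ∣[(2 : ℤ)] ModularForm.heckeMatrix q x.val)]
  refine Finset.sum_congr rfl fun x _ => ?_
  apply ULower_slash_term hq.pos hf hA hdet hd
  rw [← ZMod.intCast_zmod_eq_zero_iff_dvd]
  push_cast
  rw [ZMod.natCast_zmod_val, ZMod.natCast_zmod_val, hC0, hσ]
  simp only [Equiv.trans_apply, Equiv.mulRight₀_apply, Equiv.coe_addLeft]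
  linear_combination (-((A 0 1 : ℤ) : ZMod q) - x * ((A 1 1 : ℤ) : ZMod q)) * hAD

theorem exists_uLow [NeZero (L * q)] (hq : q.Prime) (hqL : q ∣ L)
    (f : CuspForm (Gamma0 (L * q)) 2) :
    ∃ F : CuspForm (Gamma0 L) 2, ⇑F = ModularForm.heckeU 2 q ⇑f := by
  have hL : NeZero L := ⟨fun h0 => NeZero.ne (L * q) (by rw [h0, zero_mul])⟩
  exact ⟨{ toFun := ModularForm.heckeU 2 q ⇑f
           slash_action_eq' := (inv_heckeU_lower hq hqL (inv_cuspForm f)).forall
           holo' := ModularForm.mdifferentiable_heckeU (CuspFormClass.holo f) 2 q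
           zero_at_cusps' := fun hc =>
            CuspFormClass.isZeroAt_heckeU f q (isCusp_Gamma0_of_isCusp_Gamma0 hc) }, rfl⟩

end Fermat.Agent.CAR.WN
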